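import Fermat.Agent.GS.AL.EigenAbs

/-!
# LP-FIN (abstract part): Deligne-Serre lifting for a commutative ring of operators

`T` a commutative ring acting faithfully on a finite dimensional complex vector space `V`,
`𝔫` a prime ideal of `T`.

* `exists_eigenchar_le` : there is an eigencharacter `ψ : T → ℂ` (with an eigenvector) such that
  `ker ψ ≤ 𝔫`.  [Otherwise a product of elements outside `𝔫` kills `V`: induction on the dimension.]
* `exists_maximal_of_ker_le` : if `T` is finite over `ℤ` then `ψ` has values in `ℤ̄` and there is a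
  maximal ideal `𝔪` of `ℤ̄` containing `ψ 𝔫` (lying over).
-/

set_option autoImplicit false

namespace Fermat.Agent.LP.Fin

section Eigen

variable {T V : Type*} [CommRing T] [AddCommGroup V] [Module ℂ V] [FiniteDimensional ℂ V]

/-- a common eigenvector inside a nonzero stable subspace, together with its character. -/
theorem Abs_exists_eigenchar (ρ : T →+* Module.End ℂ V) (V' : Submodule ℂ V) (hV' : V' ≠ ⊥)
    (hst : ∀ t, ∀ v ∈ V', ρ t v ∈ V') :
    ∃ (ψ : T →+* ℂ) (h : V), h ∈ V' ∧ h ≠ 0 ∧ ∀ t, ρ t h = ψ t • h := by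
  have : Nontrivial V' := Submodule.nontrivial_iff_ne_bot.2 hV'
  obtain ⟨v, c, hv0, hc⟩ := GS.AL.exists_common_eigenvector
    (fun t : T => (ρ t).restrict (hst t)) (by
      intro s t
      ext x
      change ρ s (ρ t x) = ρ t (ρ s x)
      rw [← Module.End.mul_apply, ← Module.End.mul_apply, ← map_mul, ← map_mul, mul_comm])
  have hv0' : (v : V) ≠ 0 := fun h => hv0 (Subtype.ext h)
  have hc' : ∀ t, ρ t (v : V) = c t • (v : V) := fun t => congrArg Subtype.val (hc t)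
  have hinj : ∀ a b : ℂ, a • (v : V) = b • (v : V) → a = b := fun a b h =>
    smul_left_injective ℂ hv0' h
  refine ⟨{ toFun := c, map_one' := ?_, map_mul' := ?_, map_zero' := ?_, map_add' := ?_ },
    v, v.2, hv0', hc'⟩
  · apply hinj
    rw [← hc', map_one, one_smul, Module.End.one_apply]
  · intro s t
    apply hinj
    rw [← hc', map_mul, Module.End.mul_apply, hc', map_smul, hc', smul_smul, mul_comm]
  · apply hinj
    rw [← hc', map_zero, zero_smul, LinearMap.zero_apply]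
  · intro s t
    apply hinj
    rw [← hc', map_add, LinearMap.add_apply, hc', hc', add_smul]

theorem Abs_exists_kill (ρ : T →+* Module.End ℂ V) (𝔫 : Ideal T) [h𝔫 : 𝔫.IsPrime]
    (hcon : ∀ (ψ : T →+* ℂ) (h : V), h ≠ 0 → (∀ t, ρ t h = ψ t • h) → ¬ RingHom.ker ψ ≤ 𝔫) :
    ∀ (n : ℕ) (V' : Submodule ℂ V), Module.finrank ℂ V' = n → (∀ t, ∀ v ∈ V', ρ t v ∈ V') →
      ∃ s : T, s ∉ 𝔫 ∧ ∀ v ∈ V', ρ s v = 0 := by
  intro n
  induction n using Nat.strong_induction_on with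
  | _ n ih =>
    intro V' hn hst
    by_cases hV' : V' = ⊥
    · refine ⟨1, (Ideal.ne_top_iff_one 𝔫).1 h𝔫.ne_top, ?_⟩
      intro v hv
      rw [hV', Submodule.mem_bot] at hv
      rw [hv, map_zero]
    · obtain ⟨ψ, h, hhV, hh0, hψ⟩ := Abs_exists_eigenchar ρ V' hV' hst
      obtain ⟨t, htψ, ht𝔫⟩ := SetLike.not_le_iff_exists.1 (hcon ψ h hh0 hψ)
      have hth : ρ t h = 0 := by
        rw [hψ t, (RingHom.mem_ker).1 htψ, zero_smul]
      have hst'' : ∀ s, ∀ v ∈ V'.map (ρ t), ρ s v ∈ V'.map (ρ t) := by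
        rintro s _ ⟨v, hv, rfl⟩
        refine ⟨ρ s v, hst s v hv, ?_⟩
        rw [← Module.End.mul_apply, ← Module.End.mul_apply, ← map_mul, ← map_mul, mul_comm]
      have hlt : Module.finrank ℂ (V'.map (ρ t)) < n := by
        have h1 := LinearMap.finrank_range_add_finrank_ker ((ρ t).domRestrict V')
        rw [LinearMap.range_domRestrict, hn] at h1
        have h2 : 0 < Module.finrank ℂ (LinearMap.ker ((ρ t).domRestrict V')) := by
          rw [Module.finrank_pos_iff_exists_ne_zero]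
          refine ⟨⟨⟨h, hhV⟩, ?_⟩, ?_⟩
          · rw [LinearMap.mem_ker]
            exact hth
          · intro h0
            apply hh0
            exact congrArg (fun x : LinearMap.ker ((ρ t).domRestrict V') => ((x : V') : V)) h0
        omega
      obtain ⟨s, hs, hsk⟩ := ih _ hlt (V'.map (ρ t)) rfl hst''
      refine ⟨s * t, fun hmem => (h𝔫.mem_or_mem hmem).elim hs ht𝔫, ?_⟩
      intro v hv
      rw [map_mul, Module.End.mul_apply]
      exact hsk _ ⟨v, hv, rfl⟩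

/-- **Eigencharacters below a prime ideal.** -/
theorem exists_eigenchar_le (ρ : T →+* Module.End ℂ V) (hρ : Function.Injective ρ)
    (𝔫 : Ideal T) [h𝔫 : 𝔫.IsPrime] :
    ∃ (ψ : T →+* ℂ) (h : V), h ≠ 0 ∧ (∀ t, ρ t h = ψ t • h) ∧ RingHom.ker ψ ≤ 𝔫 := by
  by_contra hcon
  have hcon' : ∀ (ψ : T →+* ℂ) (h : V), h ≠ 0 → (∀ t, ρ t h = ψ t • h) →
      ¬ RingHom.ker ψ ≤ 𝔫 := fun ψ h h0 hψ hle => hcon ⟨ψ, h, h0, hψ, hle⟩
  obtain ⟨s, hs, hsk⟩ := Abs_exists_kill ρ 𝔫 hcon' _ ⊤ rfl (fun _ _ _ => Submodule.mem_top)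
  apply hs
  have : s = 0 := by
    apply hρ
    rw [map_zero]
    ext v
    exact hsk v Submodule.mem_top
  rw [this]
  exact 𝔫.zero_mem

end Eigen

section Lift

variable {T : Type*} [CommRing T] [Module.Finite ℤ T]

theorem Abs_isIntegral (ψ : T →+* ℂ) (t : T) : IsIntegral ℤ (ψ t) :=
  (IsIntegral.of_finite ℤ t).map ψ.toIntAlgHom

/-- **Lying over.** -/
theorem exists_maximal_of_ker_le (ψ : T →+* ℂ) (𝔫 : Ideal T) [𝔫.IsPrime]
    (h : RingHom.ker ψ ≤ 𝔫) :
    ∃ 𝔪 : Ideal (integralClosure ℤ ℂ), 𝔪.IsMaximal ∧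
      ∀ t ∈ 𝔫, ∃ a : integralClosure ℤ ℂ, (a : ℂ) = ψ t ∧ a ∈ 𝔪 := by
  let ψ' : T →+* integralClosure ℤ ℂ :=
    ψ.codRestrict (integralClosure ℤ ℂ).toSubring (fun t => Abs_isIntegral ψ t)
  let _ : Algebra T (integralClosure ℤ ℂ) := ψ'.toAlgebra
  have hint : Algebra.IsIntegral T (integralClosure ℤ ℂ) :=
    ⟨fun x => (Algebra.IsIntegral.isIntegral (R := ℤ) x).tower_top⟩
  have hker : RingHom.ker (algebraMap T (integralClosure ℤ ℂ)) ≤ 𝔫 := by
    intro t ht
    apply h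
    rw [RingHom.mem_ker] at ht ⊢
    exact congrArg Subtype.val ht
  obtain ⟨Q, hQ, hQ𝔫⟩ := Ideal.exists_ideal_over_prime_of_isIntegral_of_isDomain 𝔫 hker
  obtain ⟨𝔪, h𝔪, hle⟩ := Ideal.exists_le_maximal Q hQ.ne_top
  refine ⟨𝔪, h𝔪, fun t ht => ⟨ψ' t, rfl, hle ?_⟩⟩
  rw [← hQ𝔫] at ht
  exact ht

end Lift

end Fermat.Agent.LP.Fin
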