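import Fermat.Agent.S49.Lifting
import Fermat.Agent.S49.Normalize
import Fermat.Agent.S22
import Fermat.Agent.S23.Main
import Fermat.Agent.GR.H.ExtChar
import Fermat.Prelude.Def_FLTPrelim_ModularRep

/-!
# LP-FIN: from a character `heckeAlgebra M 2 S0 → 𝔽_p` to a normalized eigenform of level `M`
(Deligne-Serre lifting)
-/

set_option autoImplicit false
set_option linter.style.haveILetI false

noncomputable section

namespace Fermat.Agent.LP.Fin

open CuspForm CongruenceSubgroup ModularFormClass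

/-- Deligne-Serre lifting at level `M`. -/
theorem exists_eigenform_of_chi (M : ℕ) [NeZero M] (p : ℕ) (hp : p.Prime) (S0 : Set ℕ)
    (a : ℕ → ℤ) (χ : CuspForm.heckeAlgebra M 2 S0 →+* ZMod p)
    (hχ : ∀ (ℓ : ℕ) (hℓ : ℓ.Prime) (hℓM : ¬ ℓ ∣ M) (hℓS : ℓ ∉ S0),
      χ (CuspForm.heckeAlgebra.T hℓ hℓM hℓS) = (a ℓ : ZMod p)) :
    ∃ (f : CuspForm (Gamma0 M) 2) (𝔪 : Ideal (integralClosure ℤ ℂ)),
      f.IsNormalizedEigenform ∧ 𝔪.IsMaximal ∧ (p : integralClosure ℤ ℂ) ∈ 𝔪 ∧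
      ∀ ℓ : ℕ, ℓ.Prime → ¬ ℓ ∣ M → ℓ ∉ S0 →
        ∃ c : integralClosure ℤ ℂ, (c : ℂ) = ModularFormClass.qCoeff f ℓ ∧
          c - ((a ℓ : ℤ) : integralClosure ℤ ℂ) ∈ 𝔪 := by
  classical
  haveI : Fact p.Prime := ⟨hp⟩
  haveI hfin : Module.Finite ℤ (GR.H.HeckeFull M) := Fermat.Agent.S22.result M 2 ∅
  have hintZ : ∀ t : GR.H.HeckeFull M, IsIntegral ℤ t := fun t => Algebra.IsIntegral.isIntegral t
  have hi : (GR.H.heckeIncl M S0).IsIntegral := by
    intro t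
    obtain ⟨q, hq, hq0⟩ := hintZ t
    refine ⟨q.map (Int.castRingHom _), hq.map _, ?_⟩
    rw [Polynomial.eval₂_map]
    have : (GR.H.heckeIncl M S0).comp (Int.castRingHom _) = algebraMap ℤ (GR.H.HeckeFull M) :=
      RingHom.ext_int _ _
    rw [this]
    exact hq0
  have hinj0 : Function.Injective (GR.H.heckeIncl M S0) := Subalgebra.inclusion_injective _
  have hsurj : Function.Surjective χ := ZMod.ringHom_surjective χ
  haveI hn0 : (RingHom.ker χ).IsMaximal := RingHom.ker_isMaximal_of_surjective χ hsurj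
  -- the maximal ideal of the full Hecke algebra
  obtain ⟨𝔫, hmax, hmem⟩ : ∃ 𝔫 : Ideal (GR.H.HeckeFull M), 𝔫.IsMaximal ∧
      ∀ t, χ t = 0 → GR.H.heckeIncl M S0 t ∈ 𝔫 := by
    letI := (GR.H.heckeIncl M S0).toAlgebra
    haveI : Algebra.IsIntegral ↥(CuspForm.heckeAlgebra M 2 S0) (GR.H.HeckeFull M) := ⟨hi⟩
    obtain ⟨𝔫, hnmax, hn⟩ := Ideal.exists_ideal_over_maximal_of_isIntegral
      (S := GR.H.HeckeFull M) (RingHom.ker χ) (by
        intro x hx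
        have h1 : GR.H.heckeIncl M S0 x = 0 := hx
        have hx0 : x = 0 := hinj0 (by rw [h1, map_zero])
        rw [hx0]; exact Ideal.zero_mem _)
    refine ⟨𝔫, hnmax, fun t ht => ?_⟩
    have h2 : t ∈ 𝔫.comap (algebraMap ↥(CuspForm.heckeAlgebra M 2 S0) (GR.H.HeckeFull M)) := by
      rw [hn]; exact ht
    exact h2
  have hprime : 𝔫.IsPrime := hmax.isPrime
  have hfd : FiniteDimensional ℂ (CuspForm (Gamma0 M) 2) :=
    Fermat.Agent.S23.finiteDimensional_cuspForm M 2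
  obtain ⟨g, hg0, χ₁, hχ₁, hker⟩ := Fermat.Agent.S49.exists_eigenvector_of_prime
    (K := ℂ) (V := CuspForm (Gamma0 M) 2)
    ((CuspForm.heckeAlgebra M 2 ∅).val.toRingHom) 𝔫
    (fun s hs => by
      have : s = 0 := Subtype.ext hs
      rw [this]; exact 𝔫.zero_mem)
  have hχ' : ∀ t : CuspForm.heckeAlgebra M 2 ∅,
      (t : Module.End ℂ (CuspForm (Gamma0 M) 2)) g = χ₁ t • g := hχ₁
  have hinj : ∀ x y : ℂ, x • g = y • g → x = y := fun x y hxy =>
    smul_left_injective ℂ hg0 hxy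
  let χh : CuspForm.heckeAlgebra M 2 ∅ →+* ℂ :=
    { toFun := χ₁
      map_one' := hinj _ _ (by rw [← hχ', one_smul]; rfl)
      map_mul' := fun s t => hinj _ _ (by
        rw [← hχ', Subalgebra.coe_mul, Module.End.mul_apply, hχ', map_smul, hχ', smul_smul,
          mul_comm])
      map_zero' := hinj _ _ (by rw [← hχ', zero_smul]; rfl)
      map_add' := fun s t => hinj _ _ (by
        rw [← hχ', Subalgebra.coe_add, LinearMap.add_apply, hχ', hχ', add_smul]) }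
  have hint : ∀ t, χh t ∈ integralClosure ℤ ℂ := fun t =>
    map_isIntegral_int χh (hintZ t)
  let χ' : CuspForm.heckeAlgebra M 2 ∅ →+* integralClosure ℤ ℂ :=
    χh.codRestrict (integralClosure ℤ ℂ) hint
  let lam : ℕ → ℂ := fun ℓ =>
    if hℓ : ℓ.Prime then
      (if hN : ℓ ∣ M then χ₁ (CuspForm.heckeAlgebra.U hℓ hN (Set.notMem_empty ℓ))
        else χ₁ (CuspForm.heckeAlgebra.T hℓ hN (Set.notMem_empty ℓ)))
    else 0
  obtain ⟨f', hf', hlam⟩ := Fermat.Agent.S49.exists_normalized g hg0 lam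
    (fun ℓ hℓ hℓN => by
      simp only [lam, dif_pos hℓ, dif_neg hℓN]
      exact hχ' (CuspForm.heckeAlgebra.T hℓ hℓN (Set.notMem_empty ℓ)))
    (fun q hq hqN => by
      simp only [lam, dif_pos hq, dif_pos hqN]
      exact hχ' (CuspForm.heckeAlgebra.U hq hqN (Set.notMem_empty q)))
  letI : Algebra (CuspForm.heckeAlgebra M 2 ∅) (integralClosure ℤ ℂ) := χ'.toAlgebra
  haveI : IsScalarTower ℤ (CuspForm.heckeAlgebra M 2 ∅) (integralClosure ℤ ℂ) :=
    IsScalarTower.of_algebraMap_eq' (Subsingleton.elim _ _)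
  haveI : Algebra.IsIntegral (CuspForm.heckeAlgebra M 2 ∅) (integralClosure ℤ ℂ) :=
    ⟨fun x => IsIntegral.tower_top (R := ℤ) (Algebra.IsIntegral.isIntegral x)⟩
  obtain ⟨Q, hQmax, hQ⟩ := Ideal.exists_ideal_over_maximal_of_isIntegral
    (S := integralClosure ℤ ℂ) 𝔫 (by
      intro t ht
      apply hker
      have : χ' t = 0 := ht
      exact congrArg Subtype.val this)
  have hmemQ : ∀ t ∈ 𝔫, χ' t ∈ Q := by
    intro t ht
    rw [← hQ] at ht
    exact ht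
  refine ⟨f', Q, hf', hQmax, ?_, ?_⟩
  · have h1 := hmem (p : ↥(CuspForm.heckeAlgebra M 2 S0)) (by
      rw [map_natCast]; exact ZMod.natCast_self p)
    rw [map_natCast] at h1
    have h2 := hmemQ _ h1
    rw [map_natCast] at h2
    exact h2
  · intro ℓ hℓ hℓM hℓS
    refine ⟨χ' (CuspForm.heckeAlgebra.T hℓ hℓM (Set.notMem_empty ℓ)), ?_, ?_⟩
    · rw [hlam ℓ hℓ]
      simp only [lam, dif_pos hℓ, dif_neg hℓM]
      rfl
    · have h1 := hmem (CuspForm.heckeAlgebra.T hℓ hℓM hℓS -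
        ((a ℓ : ℤ) : ↥(CuspForm.heckeAlgebra M 2 S0))) (by
          rw [map_sub, map_intCast, hχ ℓ hℓ hℓM hℓS, sub_self])
      rw [map_sub, map_intCast, GR.H.heckeIncl_T] at h1
      have h2 := hmemQ _ h1
      rw [map_sub, map_intCast] at h2
      exact h2

/-- the form needed in S44. -/
theorem modularRepOfLevel_of_chi (P : FreyPackage) (M : ℕ) [NeZero M] (W : WeierstrassCurve ℤ)
    (hW : W.IsIntegralModelOf P.freyCurve) (S0 : Set ℕ)
    (hS0 : ∀ ℓ ∈ S0, ℓ.Prime → ¬ W.IsGoodPrimeFor ℓ ∨ ℓ ∣ M ∨ ℓ = P.p)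
    (χ : CuspForm.heckeAlgebra M 2 S0 →+* ZMod P.p)
    (hχ : ∀ (ℓ : ℕ) (hℓ : ℓ.Prime) (hℓM : ¬ ℓ ∣ M) (hℓS : ℓ ∉ S0),
      χ (CuspForm.heckeAlgebra.T hℓ hℓM hℓS) = ((W.apOfModel ℓ : ℤ) : ZMod P.p)) :
    P.ModularRepOfLevel M := by
  obtain ⟨f, 𝔪, hf, hmax, hp, h⟩ := exists_eigenform_of_chi M P.p P.pp S0
    (fun ℓ => W.apOfModel ℓ) χ hχ
  refine ⟨f, W, 𝔪, hf, hW, hmax, hp, ?_⟩
  intro ℓ hℓ hgood hℓM hℓp
  refine h ℓ hℓ hℓM ?_
  intro hℓS
  rcases hS0 ℓ hℓS hℓ with h1 | h1 | h1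
  · exact h1 hgood
  · exact hℓM h1
  · exact hℓp h1

end Fermat.Agent.LP.Fin
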