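import Fermat.Agent.LP.Fin.Abs
import Fermat.Agent.GS.AL.Eigen
import Fermat.Agent.S22
import Fermat.Prelude.Def_FLTPrelim_ModularRep

/-!
# LP-FIN: from a mod `p` character of the Hecke algebra of level `M0` to a normalized eigenform

`χ : 𝕋(M0; S0) → 𝔽_p` with `χ (T_ℓ) = a_ℓ(W)` for `ℓ ∉ S0`  ⟹  `W` is residually modular of level `M0`.
-/

set_option autoImplicit false

namespace Fermat.Agent.LP.Fin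

open CongruenceSubgroup ModularFormClass CuspForm

/-- **Deligne-Serre lifting** for the Hecke algebra of level `M0`: a character modulo `p` of the Hecke
algebra away from `S0` comes from a normalized eigenform. `a : ℕ → ℤ` are the prescribed
eigenvalues. -/
theorem exists_eigenform_of_char {p : ℕ} [Fact p.Prime] {M0 : ℕ} [NeZero M0] (S0 : Set ℕ) (Q : ℕ)
    (hQ1 : ∀ ℓ ∈ S0, ℓ ∣ Q) (a : ℕ → ℤ)
    (χ : CuspForm.heckeAlgebra M0 2 S0 →+* ZMod p)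
    (hχ : ∀ (ℓ : ℕ) (hℓ : ℓ.Prime) (hM : ¬ ℓ ∣ M0) (hS : ℓ ∉ S0),
      χ (heckeAlgebra.T hℓ hM hS) = (a ℓ : ZMod p)) :
    ∃ (f : CuspForm (Gamma0 M0) 2) (𝔪 : Ideal (integralClosure ℤ ℂ)),
      f.IsNormalizedEigenform ∧ 𝔪.IsMaximal ∧ (p : integralClosure ℤ ℂ) ∈ 𝔪 ∧
      ∀ ℓ : ℕ, ℓ.Prime → ¬ ℓ ∣ M0 → ¬ ℓ ∣ Q →
        ∃ b : integralClosure ℤ ℂ, (b : ℂ) = qCoeff f ℓ ∧
          b - ((a ℓ : ℤ) : integralClosure ℤ ℂ) ∈ 𝔪 := by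
  classical
  have hfd : FiniteDimensional ℂ (CuspForm (Gamma0 M0) 2) := S23.finiteDimensional_cuspForm M0 2
  have hfin : Module.Finite ℤ (CuspForm.heckeAlgebra M0 2 S0) := S22.result M0 2 S0
  have hprime : (RingHom.ker χ).IsPrime := RingHom.ker_isPrime χ
  let ρ : CuspForm.heckeAlgebra M0 2 S0 →+* Module.End ℂ (CuspForm (Gamma0 M0) 2) :=
    (CuspForm.heckeAlgebra M0 2 S0).val.toRingHom
  obtain ⟨ψ, h, h0, hψ, hle⟩ := exists_eigenchar_le ρ Subtype.val_injective (RingHom.ker χ)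
  obtain ⟨𝔪, h𝔪, hlift⟩ := exists_maximal_of_ker_le ψ (RingHom.ker χ) hle
  let c : ℕ → ℂ := fun ℓ =>
    if hℓ : ℓ.Prime ∧ ¬ ℓ ∣ M0 ∧ ℓ ∉ S0 then ψ (heckeAlgebra.T hℓ.1 hℓ.2.1 hℓ.2.2) else 0
  have hc : ∀ (ℓ : ℕ) (hℓ : ℓ.Prime) (hM : ¬ ℓ ∣ M0) (hS : ℓ ∉ S0),
      c ℓ = ψ (heckeAlgebra.T hℓ hM hS) := fun ℓ hℓ hM hS => dif_pos ⟨hℓ, hM, hS⟩
  obtain ⟨f, hf, hfc⟩ := GS.AL.exists_eigenform_of_good_eigenvector Q c h h0 (by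
    intro ℓ hℓ hM hQ
    have hS : ℓ ∉ S0 := fun hS => hQ (hQ1 ℓ hS)
    rw [hc ℓ hℓ hM hS]
    exact hψ (heckeAlgebra.T hℓ hM hS))
  refine ⟨f, 𝔪, hf, h𝔪, ?_, ?_⟩
  · obtain ⟨b, hb, hbm⟩ := hlift (p : CuspForm.heckeAlgebra M0 2 S0) (by
      rw [RingHom.mem_ker, map_natCast, ZMod.natCast_self])
    have : b = (p : integralClosure ℤ ℂ) := by
      apply Subtype.ext
      rw [hb, map_natCast]
      simp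
    rw [← this]
    exact hbm
  · intro ℓ hℓ hM hQ
    have hS : ℓ ∉ S0 := fun hS => hQ (hQ1 ℓ hS)
    obtain ⟨b, hb, hbm⟩ := hlift
      (heckeAlgebra.T hℓ hM hS - ((a ℓ : ℤ) : CuspForm.heckeAlgebra M0 2 S0)) (by
        rw [RingHom.mem_ker, map_sub, hχ ℓ hℓ hM hS, map_intCast, sub_self])
    refine ⟨b + ((a ℓ : ℤ) : integralClosure ℤ ℂ), ?_, ?_⟩
    · rw [hfc ℓ hℓ hM hQ, hc ℓ hℓ hM hS]
      push_cast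
      rw [hb, map_sub, map_intCast]
      ring
    · rw [add_sub_cancel_right]
      exact hbm

/-- the same in the language of the Prelude. -/
theorem isResiduallyModularOfLevel_of_char {p : ℕ} [Fact p.Prime] {M0 : ℕ} [NeZero M0]
    (W : WeierstrassCurve ℤ) (S0 : Set ℕ) (Q : ℕ) (hQ1 : ∀ ℓ ∈ S0, ℓ ∣ Q)
    (hQ2 : ∀ ℓ : ℕ, ℓ.Prime → ℓ ∣ Q → ℓ ∣ M0 ∨ ℓ = p ∨ ¬ W.IsGoodPrimeFor ℓ)
    (χ : CuspForm.heckeAlgebra M0 2 S0 →+* ZMod p)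
    (hχ : ∀ (ℓ : ℕ) (hℓ : ℓ.Prime) (hM : ¬ ℓ ∣ M0) (hS : ℓ ∉ S0),
      χ (heckeAlgebra.T hℓ hM hS) = ((W.apOfModel ℓ : ℤ) : ZMod p)) :
    W.IsResiduallyModularOfLevel p M0 := by
  obtain ⟨f, 𝔪, hf, h𝔪, hp, hcong⟩ :=
    exists_eigenform_of_char S0 Q hQ1 (fun ℓ => W.apOfModel ℓ) χ hχ
  refine ⟨f, 𝔪, hf, h𝔪, hp, fun ℓ hℓ hgood hM hℓp => hcong ℓ hℓ hM ?_⟩
  intro hQ
  rcases hQ2 ℓ hℓ hQ with h | h | h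
  · exact hM h
  · exact hℓp h
  · exact h hgood

/-- **Export of LP-FIN.** -/
theorem modularRepOfLevel_of_char (P : FreyPackage) {M0 : ℕ} [NeZero M0] {W : WeierstrassCurve ℤ}
    (hW : W.IsIntegralModelOf P.freyCurve) (S0 : Set ℕ) (Q : ℕ) (hQ1 : ∀ ℓ ∈ S0, ℓ ∣ Q)
    (hQ2 : ∀ ℓ : ℕ, ℓ.Prime → ℓ ∣ Q → ℓ ∣ M0 ∨ ℓ = P.p ∨ ¬ W.IsGoodPrimeFor ℓ)
    (χ : CuspForm.heckeAlgebra M0 2 S0 →+* ZMod P.p)
    (hχ : ∀ (ℓ : ℕ) (hℓ : ℓ.Prime) (hM : ¬ ℓ ∣ M0) (hS : ℓ ∉ S0),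
      χ (heckeAlgebra.T hℓ hM hS) = ((W.apOfModel ℓ : ℤ) : ZMod P.p)) :
    P.ModularRepOfLevel M0 := by
  have : Fact P.p.Prime := ⟨P.pp⟩
  obtain ⟨f, 𝔪, hf, h𝔪, hp, hcong⟩ :=
    isResiduallyModularOfLevel_of_char W S0 Q hQ1 hQ2 χ hχ
  exact ⟨f, W, 𝔪, hf, hW, h𝔪, hp, hcong⟩

end Fermat.Agent.LP.Fin
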