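import Fermat.Agent.LP.Fin.Main
import Fermat.Agent.LP.Iface
import Fermat.Agent.EL.VC

/-!
# LP-FIN: the output `FinOut` of the interface `LP/Iface.lean`

`exc W p M0` contains `2` and `3`, which may be good for `W`; we replace `W` by the integral model
`a_i' = 6 ^ i a_i`, which is bad at `2` and `3` and has the same `a_ℓ` for `ℓ ∤ 6`.
-/

set_option autoImplicit false

noncomputable section

namespace Fermat.Agent.LP.Fin

open WeierstrassCurve

/-- the model `a_i' = 6 ^ i a_i`. -/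
def scale6 (W : WeierstrassCurve ℤ) : WeierstrassCurve ℤ :=
  ⟨6 * W.a₁, 6 ^ 2 * W.a₂, 6 ^ 3 * W.a₃, 6 ^ 4 * W.a₄, 6 ^ 6 * W.a₆⟩

theorem scale6_Δ (W : WeierstrassCurve ℤ) : (scale6 W).Δ = 6 ^ 12 * W.Δ := by
  simp only [scale6, WeierstrassCurve.Δ, b₂, b₄, b₆, b₈]
  ring

/-- over a field in which `6` is invertible, `scale6` is a change of variables. -/
theorem Out_map_scale6 {F : Type*} [Field F] (φ : ℤ →+* F) (u : Fˣ) (hu : (u : F) = 6)
    (W : WeierstrassCurve ℤ) :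
    (scale6 W).map φ = (⟨u⁻¹, 0, 0, 0⟩ : VariableChange F) • (W.map φ) := by
  ext
  · rw [variableChange_a₁]
    simp only [scale6, map_a₁, map_mul, inv_inv, hu, mul_zero, add_zero]
    simp
  · rw [variableChange_a₂]
    simp only [scale6, map_a₂, map_mul, map_pow, inv_inv, hu]
    simp
  · rw [variableChange_a₃]
    simp only [scale6, map_a₃, map_mul, map_pow, inv_inv, hu]
    simp
  · rw [variableChange_a₄]
    simp only [scale6, map_a₄, map_mul, map_pow, inv_inv, hu]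
    simp
  · rw [variableChange_a₆]
    simp only [scale6, map_a₆, map_mul, map_pow, inv_inv, hu]
    simp

theorem scale6_isIntegralModelOf {W : WeierstrassCurve ℤ} {E : WeierstrassCurve ℚ}
    (h : W.IsIntegralModelOf E) : (scale6 W).IsIntegralModelOf E := by
  obtain ⟨C, hC⟩ := h
  refine ⟨(⟨(Units.mk0 (6 : ℚ) (by norm_num))⁻¹, 0, 0, 0⟩ : VariableChange ℚ) * C, ?_⟩
  rw [mul_smul, hC, Out_map_scale6 (Int.castRingHom ℚ) (Units.mk0 (6 : ℚ) (by norm_num)) rfl]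

theorem scale6_isGoodPrimeFor_iff (W : WeierstrassCurve ℤ) {ℓ : ℕ} (hℓ : ℓ.Prime) :
    (scale6 W).IsGoodPrimeFor ℓ ↔ W.IsGoodPrimeFor ℓ ∧ ℓ ≠ 2 ∧ ℓ ≠ 3 := by
  have hp : Prime (ℓ : ℤ) := Nat.prime_iff_prime_int.mp hℓ
  have h6 : (ℓ : ℤ) ∣ 6 ^ 12 ↔ ℓ = 2 ∨ ℓ = 3 := by
    constructor
    · intro h
      have h1 : (ℓ : ℤ) ∣ 6 := hp.dvd_of_dvd_pow h
      have h2 : ℓ ∣ 2 * 3 := by exact_mod_cast h1
      rcases (Nat.Prime.dvd_mul hℓ).mp h2 with h3 | h3
      · exact Or.inl ((Nat.prime_dvd_prime_iff_eq hℓ Nat.prime_two).mp h3)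
      · exact Or.inr ((Nat.prime_dvd_prime_iff_eq hℓ Nat.prime_three).mp h3)
    · rintro (rfl | rfl) <;> norm_num
  unfold IsGoodPrimeFor
  rw [scale6_Δ, hp.dvd_mul, h6]
  tauto

theorem scale6_apOfModel (W : WeierstrassCurve ℤ) {ℓ : ℕ} (hℓ : ℓ.Prime) (h2 : ℓ ≠ 2)
    (h3 : ℓ ≠ 3) : (scale6 W).apOfModel ℓ = W.apOfModel ℓ := by
  haveI : Fact ℓ.Prime := ⟨hℓ⟩
  have h6 : (6 : ZMod ℓ) ≠ 0 := by
    intro h
    have h1 : ((6 : ℕ) : ZMod ℓ) = 0 := by exact_mod_cast h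
    rw [ZMod.natCast_eq_zero_iff] at h1
    have h4 : ℓ ∣ 2 * 3 := h1
    rcases (Nat.Prime.dvd_mul hℓ).mp h4 with h5 | h5
    · exact h2 ((Nat.prime_dvd_prime_iff_eq hℓ Nat.prime_two).mp h5)
    · exact h3 ((Nat.prime_dvd_prime_iff_eq hℓ Nat.prime_three).mp h5)
  have e := Out_map_scale6 (Int.castRingHom (ZMod ℓ)) (Units.mk0 (6 : ZMod ℓ) h6) rfl W
  unfold apOfModel traceOfFrobenius card reductionMod
  rw [e]
  congr 2
  exact_mod_cast Nat.card_congr (Equiv.ofBijective _ (EL.vcFun_bijective _ _))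

theorem finOut : FinOut := by
  intro P M0 _ W hW ⟨χ, hχ⟩
  have hprime : ∀ ℓ ∈ exc W P.p M0, ℓ.Prime := by
    intro ℓ hℓ
    simp only [exc, Gal.badSet, Finset.mem_union, Finset.mem_insert] at hℓ
    rcases hℓ with (rfl | rfl | rfl | h) | h
    · exact Nat.prime_two
    · exact Nat.prime_three
    · exact P.pp
    · exact Nat.prime_of_mem_primeFactors h
    · exact Nat.prime_of_mem_primeFactors h
  refine modularRepOfLevel_of_char P (W := scale6 W) (scale6_isIntegralModelOf hW)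
    (S0 := ↑(exc W P.p M0)) (Q := ∏ ℓ ∈ exc W P.p M0, ℓ)
    (fun ℓ hℓ => Finset.dvd_prod_of_mem _ hℓ) ?_ χ ?_
  · intro ℓ hℓ hdvd
    obtain ⟨r, hr, hℓr⟩ := (Prime.dvd_finsetProd_iff (Nat.prime_iff.mp hℓ) _).mp hdvd
    have hrℓ : ℓ = r := (Nat.prime_dvd_prime_iff_eq hℓ (hprime r hr)).mp hℓr
    subst hrℓ
    simp only [exc, Gal.badSet, Finset.mem_union, Finset.mem_insert] at hr
    rcases hr with (rfl | rfl | rfl | h) | h
    · right; right
      rw [scale6_isGoodPrimeFor_iff W hℓ]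
      tauto
    · right; right
      rw [scale6_isGoodPrimeFor_iff W hℓ]
      tauto
    · right; left; rfl
    · right; right
      rw [scale6_isGoodPrimeFor_iff W hℓ]
      intro hg
      apply hg.1
      exact Int.natCast_dvd.mpr (Nat.dvd_of_mem_primeFactors h)
    · left
      exact Nat.dvd_of_mem_primeFactors h
  · intro ℓ hℓ hM hS
    have h2 : ℓ ≠ 2 := by
      rintro rfl
      apply hS
      simp [exc, Gal.badSet]
    have h3 : ℓ ≠ 3 := by
      rintro rfl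
      apply hS
      simp [exc, Gal.badSet]
    rw [scale6_apOfModel W hℓ h2 h3]
    exact hχ ℓ hℓ hM hS

end Fermat.Agent.LP.Fin
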